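import Fermat.Agent.S19.M.Defs
import Fermat.Agent.S27.Rational

/-!
# S19 / M2b : Galois descent of `L(E)`, `E` a rational divisor

`V = L(E)` is a finite dimensional `ℚ̄`-subspace of `FM M ⊆ ℚ̄((q))`, stable under `Gam` (acting on
coefficients).  It has a basis of `Gam`-fixed elements: choose a finite set `I` of exponents such that
`V → ℚ̄^I` (coefficients) is injective, apply `S27.exists_rational_basis_fun` to the image; an element
of `V` with rational `I`-coefficients is fixed by `Gam`.
-/

set_option autoImplicit false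
set_option synthInstance.maxHeartbeats 400000

open AlgebraicCurve ModularCurve

namespace Fermat.Agent.S19

open Fermat.Agent.S27 Fermat.Agent.RED

/-- finitely many coordinates suffice to separate the points of a finite dimensional space of
functions. -/
theorem exists_finset_coord_injective {K U X : Type*} [Field K] [AddCommGroup U] [Module K U]
    (c : U →ₗ[K] (X → K)) (hc : Function.Injective c)
    (V : Submodule K U) [FiniteDimensional K V] :
    ∃ I : Finset X, ∀ u ∈ V, (∀ x ∈ I, c u x = 0) → u = 0 := by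
  classical
  let N : Finset X → Submodule K U := fun I =>
    { carrier := {u | u ∈ V ∧ ∀ x ∈ I, c u x = 0}
      zero_mem' := ⟨V.zero_mem, fun x _ => by simp⟩
      add_mem' := fun {a b} ha hb => ⟨V.add_mem ha.1 hb.1, fun x hx => by
        simp [ha.2 x hx, hb.2 x hx]⟩
      smul_mem' := fun r a ha => ⟨V.smul_mem r ha.1, fun x hx => by simp [ha.2 x hx]⟩ }
  have hNV : ∀ I, N I ≤ V := fun I u hu => hu.1
  have hfd : ∀ I, FiniteDimensional K (N I) := fun I => Submodule.finiteDimensional_of_le (hNV I)
  have key : ∀ (d : ℕ) (I : Finset X), Module.finrank K (N I) ≤ d → ∃ J : Finset X, N J = ⊥ := by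
    intro d
    induction d with
    | zero =>
      intro I hI
      have := hfd I
      exact ⟨I, Submodule.finrank_eq_zero.mp (Nat.le_zero.mp hI)⟩
    | succ d ih =>
      intro I hI
      by_cases hbot : N I = ⊥
      · exact ⟨I, hbot⟩
      obtain ⟨u, hu, hu0⟩ := Submodule.exists_mem_ne_zero_of_ne_bot hbot
      have hcu : c u ≠ 0 := fun h => hu0 (hc (by rw [h, map_zero]))
      obtain ⟨x, hx⟩ := Function.ne_iff.mp hcu
      apply ih (insert x I)
      have hlt : N (insert x I) < N I := by
        refine lt_of_le_of_ne (fun a ha => ⟨ha.1, fun y hy => ha.2 y (Finset.mem_insert_of_mem hy)⟩)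
          fun heq => ?_
        have : u ∈ N (insert x I) := heq ▸ hu
        exact hx (this.2 x (Finset.mem_insert_self _ _))
      have := hfd I
      have := Submodule.finrank_lt_finrank_of_lt hlt
      omega
  obtain ⟨J, hJ⟩ := key _ ∅ le_rfl
  refine ⟨J, fun u hu h => ?_⟩
  have : u ∈ N J := ⟨hu, h⟩
  rw [hJ] at this
  exact (Submodule.mem_bot K).mp this

/-- abstract Galois descent for a finite dimensional stable space of "functions". -/
theorem exists_fixed_basis_abs {k K U X : Type*} [Field k] [Field K] [Algebra k K]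
    [AddCommGroup U] [Module K U]
    (hfix : ∀ a : K, (∀ σ : K ≃ₐ[k] K, σ a = a) → a ∈ Set.range (algebraMap k K))
    (c : U →ₗ[K] (X → K)) (hc : Function.Injective c)
    (act : (K ≃ₐ[k] K) → U → U) (hact : ∀ σ u x, c (act σ u) x = σ (c u x))
    (V : Submodule K U) [FiniteDimensional K V] (hV : ∀ σ, ∀ u ∈ V, act σ u ∈ V) :
    ∃ (n : ℕ) (v : Fin n → U), (∀ j, v j ∈ V) ∧ (∀ σ j, act σ (v j) = v j) ∧
      LinearIndependent K v ∧ ∀ a ∈ V, a ∈ Submodule.span K (Set.range v) := by
  classical
  obtain ⟨I, hI⟩ := exists_finset_coord_injective c hc V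
  let r : U →ₗ[K] (I → K) := (LinearMap.funLeft K K (Subtype.val : I → X)) ∘ₗ c
  have hr : ∀ u (x : I), r u x = c u x := fun _ _ => rfl
  have hrinj : ∀ u ∈ V, r u = 0 → u = 0 := by
    intro u hu h
    exact hI u hu fun x hx => congrFun h ⟨x, hx⟩
  let W : Submodule K (I → K) := V.map r
  have hW : ∀ σ : K ≃ₐ[k] K, ∀ w ∈ W, (fun i => σ (w i)) ∈ W := by
    rintro σ _ ⟨u, hu, rfl⟩
    refine ⟨act σ u, hV σ u hu, ?_⟩
    funext x
    rw [hr, hact, hr]
  obtain ⟨w, hwli, hwW, hwrat⟩ := exists_rational_basis_fun hfix W hW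
  choose v hvV hvw using hwW
  refine ⟨_, v, hvV, ?_, ?_, ?_⟩
  · intro σ j
    have h1 : act σ (v j) - v j ∈ V := V.sub_mem (hV σ _ (hvV j)) (hvV j)
    have h2 : r (act σ (v j) - v j) = 0 := by
      funext x
      rw [map_sub, Pi.sub_apply, hr, hact, ← hr, hvw]
      obtain ⟨q, hq⟩ := hwrat j x
      rw [← hq, AlgEquiv.commutes, sub_self, Pi.zero_apply]
    exact sub_eq_zero.mp (hrinj _ h1 h2)
  · apply LinearIndependent.of_comp r
    have : (r ∘ v) = w := funext hvw
    rw [this]
    exact hwli
  · intro a ha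
    let w' : Fin (Module.finrank K W) → W := fun j => ⟨w j, hvw j ▸ ⟨v j, hvV j, rfl⟩⟩
    have hw'li : LinearIndependent K w' := by
      apply LinearIndependent.of_comp W.subtype
      exact hwli
    have hspan := hw'li.span_eq_top_of_card_eq_finrank' (by simp)
    have hra : (⟨r a, ⟨a, ha, rfl⟩⟩ : W) ∈ Submodule.span K (Set.range w') := by
      rw [hspan]; trivial
    obtain ⟨α, hα⟩ := (Submodule.mem_span_range_iff_exists_fun K).mp hra
    have h1 : a - ∑ j, α j • v j ∈ V :=
      V.sub_mem ha (V.sum_mem fun j _ => V.smul_mem _ (hvV j))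
    have h2 : r (a - ∑ j, α j • v j) = 0 := by
      have h3 := congrArg Subtype.val hα
      simp only [Submodule.coe_sum, Submodule.coe_smul] at h3
      rw [map_sub, map_sum, ← h3, sub_eq_zero]
      refine (Finset.sum_congr rfl fun j _ => ?_).symm
      rw [map_smul, hvw]
    have h4 := sub_eq_zero.mp (hrinj _ h1 h2)
    rw [h4]
    exact Submodule.sum_mem _ fun j _ => Submodule.smul_mem _ _ (Submodule.subset_span ⟨j, rfl⟩)

theorem smul_mem_LS_of_fixed {K F : Type*} [Field K] [Field F] [Algebra K F]
    (g : SemilinearAut K F) (E : Divisor K F) (hE : g • E = E) {u : F} (hu : u ∈ LS E) :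
    g • u ∈ LS E := by
  rcases hu with rfl | hu
  · left
    exact smul_zero g
  · right
    intro w
    have h1 := SemilinearAut.ord_smul g (g⁻¹ • w) u
    rw [smul_inv_smul] at h1
    rw [h1]
    have h2 := SemilinearAut.divisor_smul_apply g E w
    rw [hE] at h2
    rw [h2]
    exact hu _

/-- **M2b.** -/
theorem exists_fixed_basis_aux (M : ℕ) [NeZero M] (E : Divisor Qb (FM M))
    (hE : ∀ σ : Gam, galM M σ • E = E) :
    ∃ (n : ℕ) (v : Fin n → FM M), (∀ j, v j ∈ LS E) ∧ (∀ (σ : Gam) j, galM M σ • v j = v j) ∧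
      LinearIndependent Qb v ∧ ∀ a ∈ LS E, a ∈ Submodule.span Qb (Set.range v) := by
  have : FiniteDimensional Qb (LS E) := by
    rw [LS_eq_riemannRochSpace]
    exact (Desc.isSepParam_jF M).finite_L E
  let c : FM M →ₗ[Qb] (ℤ → Qb) :=
    { toFun := fun u n => (u : LaurentSeries Qb).coeff n
      map_add' := fun u v => by funext n; simp
      map_smul' := fun a u => by
        funext n
        have h1 : ((a • u : FM M) : LaurentSeries Qb) =
            algebraMap Qb (LaurentSeries Qb) a * (u : LaurentSeries Qb) := by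
          rw [Algebra.smul_def]; rfl
        change ((a • u : FM M) : LaurentSeries Qb).coeff n = a * (u : LaurentSeries Qb).coeff n
        rw [h1, algebraMap_laurentSeries_eq_single, HahnSeries.coeff_single_zero_mul] }
  have hc : Function.Injective c := by
    intro u v h
    apply Subtype.ext
    ext n
    exact congrFun h n
  have hfix : ∀ a : Qb, (∀ σ : Qb ≃ₐ[ℚ] Qb, σ a = a) → a ∈ Set.range (algebraMap ℚ Qb) := by
    intro a ha
    have h1 : Algebra.IsAlgebraic ℚ (AlgebraicClosure ℚ) := AlgebraicClosure.isAlgebraic ℚ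
    have h2 : IsAlgClosure ℚ (AlgebraicClosure ℚ) := ⟨inferInstance, inferInstance⟩
    have h3 : Normal ℚ (AlgebraicClosure ℚ) := IsAlgClosure.normal ℚ (AlgebraicClosure ℚ)
    have h4 : IsGalois ℚ Qb := {}
    have h5 : a ∈ (⊥ : IntermediateField ℚ Qb) := (InfiniteGalois.mem_bot_iff_fixed a).2 ha
    exact IntermediateField.mem_bot.1 h5
  refine exists_fixed_basis_abs (k := ℚ) hfix c hc (fun σ u => galM M σ • u) ?_ (LS E) ?_
  · intro σ u n
    change ((galM M σ • u : FM M) : LaurentSeries Qb).coeff n = σ ((u : LaurentSeries Qb).coeff n)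
    rw [coe_arithmeticGalois_smul, coeffMap_coeff]
    rfl
  · intro σ u hu
    exact smul_mem_LS_of_fixed _ E (hE σ) hu

end Fermat.Agent.S19
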