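import Mathlib

/-!
# S19 / M2a : orthonormal bases by pivoting (abstract, Mathlib only)

`L` a field, `A` a valuation ring of `L`, `L₀` a subfield, `X` an index set (`ℤ` in the application:
coefficients of `q`-expansions).  `v : Fin d → X → L` linearly independent over `L`, with values in
`L₀`, such that every non zero `L₀`-combination `w` of the `v i` attains its sup-norm:
`∃ n, w n ≠ 0 ∧ ∀ n', w n' / w n ∈ A`.
Then there is an invertible matrix `T` with entries in `L₀` such that `u j = ∑ i, T j i • v i`
satisfies: `u j n ∈ A`, and `(∀ n, ∑ j, α j * u j n ∈ A) → ∀ j, α j ∈ A` for all `α : Fin d → L`.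

Proof: induction on `d`.  Scale `v 0` by `(v 0 n₀)⁻¹` (`n₀` a place where the sup is attained); subtract
multiples of it from the other `v i` to make their `n₀`-th coordinate `0`; apply the induction
hypothesis to them.  If `∑ α j u j` is `A`-valued, its `n₀`-th coordinate is `α 0`, so `α 0 ∈ A`, and
`∑_{j>0} α j u j` is `A`-valued.
-/

set_option autoImplicit false

namespace Fermat.Agent.S19

theorem exists_orthonormal_pivot {L : Type*} [Field L] (A : ValuationSubring L) (L₀ : Subfield L)
    {X : Type*} {d : ℕ} (v : Fin d → X → L) (hli : LinearIndependent L v)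
    (hrat : ∀ i n, v i n ∈ L₀)
    (hsup : ∀ a : Fin d → L, (∀ i, a i ∈ L₀) → a ≠ 0 →
      ∃ n, (∑ i, a i * v i n) ≠ 0 ∧ ∀ n', (∑ i, a i * v i n') / (∑ i, a i * v i n) ∈ A) :
    ∃ T : Matrix (Fin d) (Fin d) L, (∀ i j, T i j ∈ L₀) ∧ IsUnit T.det ∧
      (∀ j n, (∑ i, T j i * v i n) ∈ A) ∧
      ∀ α : Fin d → L, (∀ n, (∑ j, α j * ∑ i, T j i * v i n) ∈ A) → ∀ j, α j ∈ A := by
  induction d with
  | zero =>
    exact ⟨1, fun i => i.elim0, by simp, fun j => j.elim0, fun _ _ j => j.elim0⟩
  | succ d ih =>
    -- the pivot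
    obtain ⟨n₀, hn₀, hA₀⟩ := hsup (Pi.single 0 1)
      (fun i => by
        by_cases h : i = 0
        · subst h; simp
        · simp [Pi.single_eq_of_ne h])
      (fun h => by simpa using congrFun h 0)
    have hsingle : ∀ n, (∑ i, (Pi.single 0 1 : Fin (d + 1) → L) i * v i n) = v 0 n := by
      intro n
      rw [Finset.sum_eq_single 0]
      · simp
      · intro b _ hb; simp [Pi.single_eq_of_ne hb]
      · simp
    simp only [hsingle] at hn₀ hA₀
    set c : L := (v 0 n₀)⁻¹ with hc
    have hcL : c ∈ L₀ := L₀.inv_mem (hrat 0 n₀)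
    have hc0 : c ≠ 0 := inv_ne_zero hn₀
    have hcv : c * v 0 n₀ = 1 := inv_mul_cancel₀ hn₀
    let v' : Fin d → X → L := fun i n => v i.succ n - v i.succ n₀ * c * v 0 n
    have hv'0 : ∀ i, v' i n₀ = 0 := by
      intro i
      show v i.succ n₀ - v i.succ n₀ * c * v 0 n₀ = 0
      rw [mul_assoc, hcv, mul_one, sub_self]
    -- key identity for combinations
    have hcomb : ∀ (a : Fin d → L) (n : X),
        (∑ i, (Fin.cons (-∑ i, a i * (v i.succ n₀ * c)) a : Fin (d + 1) → L) i * v i n)
          = ∑ i, a i * v' i n := by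
      intro a n
      rw [Fin.sum_univ_succ]
      simp only [Fin.cons_zero, Fin.cons_succ, v', mul_sub, Finset.sum_sub_distrib]
      rw [neg_mul, Finset.sum_mul, add_comm, ← sub_eq_add_neg]
      congr 1
      exact Finset.sum_congr rfl fun i _ => by ring
    have hconsL : ∀ a : Fin d → L, (∀ i, a i ∈ L₀) →
        ∀ i, (Fin.cons (-∑ i, a i * (v i.succ n₀ * c)) a : Fin (d + 1) → L) i ∈ L₀ := by
      intro a ha i
      refine Fin.cases ?_ (fun i => ?_) i
      · simp only [Fin.cons_zero]
        exact L₀.neg_mem (L₀.sum_mem fun i _ => L₀.mul_mem (ha i) (L₀.mul_mem (hrat _ _) hcL))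
      · simpa using ha i
    have hli' : LinearIndependent L v' := by
      rw [Fintype.linearIndependent_iff] at hli ⊢
      intro a ha i
      have := hli (Fin.cons (-∑ i, a i * (v i.succ n₀ * c)) a) (by
        funext n
        have h1 := congrFun ha n
        simp only [Finset.sum_apply, Pi.smul_apply, smul_eq_mul, Pi.zero_apply] at h1 ⊢
        rw [hcomb, h1]) i.succ
      simpa using this
    obtain ⟨T', hT'L, hT'det, hT'A, hT'on⟩ := ih v' hli'
      (fun i n => L₀.sub_mem (hrat _ _) (L₀.mul_mem (L₀.mul_mem (hrat _ _) hcL) (hrat _ _)))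
      (fun a ha ha0 => by
        obtain ⟨n, hn, hn'⟩ := hsup (Fin.cons (-∑ i, a i * (v i.succ n₀ * c)) a) (hconsL a ha)
          (fun h => ha0 (by
            funext i
            simpa using congrFun h i.succ))
        simp only [hcomb] at hn hn'
        exact ⟨n, hn, hn'⟩)
    -- the matrix
    let T : Matrix (Fin (d + 1)) (Fin (d + 1)) L :=
      Fin.cons (Fin.cons c 0) (fun j => Fin.cons (-∑ i, T' j i * (v i.succ n₀ * c)) (T' j))
    have hT0 : ∀ n, (∑ i, T 0 i * v i n) = c * v 0 n := by
      intro n
      rw [Fin.sum_univ_succ]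
      simp [T]
    have hTs : ∀ j n, (∑ i, T (Fin.succ j) i * v i n) = ∑ i, T' j i * v' i n := by
      intro j n
      exact hcomb (T' j) n
    refine ⟨T, ?_, ?_, ?_, ?_⟩
    · intro i
      refine Fin.cases ?_ (fun i => ?_) i
      · intro j
        refine Fin.cases ?_ (fun j => ?_) j
        · simpa [T] using hcL
        · simp [T]
      · exact hconsL (T' i) (hT'L i)
    · rw [Matrix.det_succ_row_zero, Fin.sum_univ_succ]
      have h1 : ∀ j : Fin d, T 0 j.succ = 0 := fun j => by simp [T]
      have h2 : T.submatrix Fin.succ (Fin.succAbove 0) = T' := by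
        ext i j
        rfl
      simp only [h1, mul_zero, zero_mul, Finset.sum_const_zero, add_zero, h2]
      have h3 : T 0 0 = c := by simp [T]
      rw [h3]
      simpa using (hc0.isUnit.mul hT'det)
    · intro j n
      refine Fin.cases ?_ (fun j => ?_) j
      · rw [hT0, hc, mul_comm, ← div_eq_mul_inv]; exact hA₀ n
      · rw [hTs]; exact hT'A j n
    · intro α hα
      have hα0 : α 0 ∈ A := by
        have := hα n₀
        rw [Fin.sum_univ_succ, hT0, hcv, mul_one] at this
        simpa [hTs, hv'0] using this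
      intro j
      refine Fin.cases hα0 (fun j => ?_) j
      refine hT'on (fun j => α j.succ) (fun n => ?_) j
      have := hα n
      rw [Fin.sum_univ_succ, hT0] at this
      simp only [hTs] at this
      have h2 : α 0 * (c * v 0 n) ∈ A :=
        A.mul_mem _ _ hα0 (by rw [hc, mul_comm, ← div_eq_mul_inv]; exact hA₀ n)
      have h3 := A.sub_mem this h2
      simpa using h3

end Fermat.Agent.S19
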