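import Fermat.Agent.RED.Gauss.ON
import Fermat.Agent.S19.M.ONAbs

/-!
# S19 / M2c (abstract part): rational orthonormal bases from `CoreData`

`F = ⊕ L(t) w_i` (`RED.Gauss.CoreData`).  If a basis `v i` of a finite dimensional subspace has
polynomial coordinates with coefficients in a subfield `L₀`, some `L₀`-rational change of basis makes
it orthonormal for the Gauss ring.
-/

set_option autoImplicit false
noncomputable section

open ModularCurve Polynomial

namespace Fermat.Agent.S19

open Fermat.Agent.RED.Gauss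

-- `LaurentSeries L` carries two non-defeq `L`-module structures; we always use `Algebra.toModule`
attribute [-instance] HahnSeries.instModule HahnSeries.instSMul HahnSeries.instDistribMulAction
  HahnSeries.instSMulZeroClass

/-- shortcut instance -/
local instance instMulActionLS' (K : Type*) [Field K] : MulAction K (LaurentSeries K) :=
  Algebra.toModule.toMulAction

variable {L : Type*} [Field L] {A : ValuationSubring L}
variable {k : Type*} [Field k] {π : A →+* k}
variable {F : IntermediateField L (LaurentSeries L)}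
variable {n : ℕ} {t : LaurentSeries A} {w : Fin n → LaurentSeries A}

/-- a non zero vector of polynomials has a coefficient of maximal absolute value. -/
theorem exists_max_coeff (A : ValuationSubring L) {ι : Type*} [Fintype ι] (f : ι → L[X])
    (hf : f ≠ 0) :
    ∃ x : ι × ℕ, (f x.1).coeff x.2 ≠ 0 ∧
      ∀ y : ι × ℕ, (f y.1).coeff y.2 / (f x.1).coeff x.2 ∈ A := by
  classical
  set N : ℕ := Finset.univ.sup (fun a => (f a).natDegree) with hN
  set S : Finset (ι × ℕ) := (Finset.univ : Finset ι) ×ˢ Finset.range (N + 1) with hS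
  have hout : ∀ y : ι × ℕ, y ∉ S → (f y.1).coeff y.2 = 0 := by
    intro y hy
    apply Polynomial.coeff_eq_zero_of_natDegree_lt
    have h1 : (f y.1).natDegree ≤ N := Finset.le_sup (f := fun a => (f a).natDegree)
      (Finset.mem_univ y.1)
    by_contra hcon
    apply hy
    rw [hS, Finset.mem_product]
    exact ⟨Finset.mem_univ _, Finset.mem_range.mpr (by omega)⟩
  obtain ⟨z, hz⟩ : ∃ z : ι × ℕ, (f z.1).coeff z.2 ≠ 0 := by
    by_contra hcon
    push Not at hcon
    exact hf (funext fun a => Polynomial.ext fun m => by simpa using hcon (a, m))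
  have hzS : z ∈ S := by
    by_contra h
    exact hz (hout z h)
  obtain ⟨x, _, hmax⟩ := Finset.exists_max_image S (fun y => A.valuation ((f y.1).coeff y.2))
    ⟨z, hzS⟩
  have hx0 : (f x.1).coeff x.2 ≠ 0 := by
    intro h0
    have h1 := hmax z hzS
    simp only [h0, map_zero, le_zero_iff, map_eq_zero] at h1
    exact hz h1
  refine ⟨x, hx0, fun y => ?_⟩
  by_cases hy : y ∈ S
  · rw [← A.valuation_le_one_iff, map_div₀]
    have hv : A.valuation ((f x.1).coeff x.2) ≠ 0 := (Valuation.ne_zero_iff _).mpr hx0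
    rw [div_le_one₀ (zero_lt_iff.mpr hv)]
    exact hmax y hy
  · rw [hout y hy, zero_div]
    exact A.zero_mem

/-- a vector of polynomials with coefficients in `A` comes from `A[X]`. -/
theorem exists_lift_poly {ι : Type*} (f : ι → L[X]) (hf : ∀ a m, (f a).coeff m ∈ A) :
    ∃ p : ι → A[X], ∀ a, (p a).map A.subtype = f a := by
  have hl : ∀ a, f a ∈ Polynomial.lifts A.subtype := by
    intro a
    rw [Polynomial.lifts_iff_coeff_lifts]
    intro m
    exact ⟨⟨_, hf a m⟩, rfl⟩
  choose p hp using fun a => (Polynomial.mem_lifts _).mp (hl a)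
  exact ⟨p, hp⟩

/-- **the Gauss norm in coordinates**: `∑ f_i(t) w_i` is in the Gauss ring iff the `f_i` have
coefficients in `A`. -/
theorem coeff_mem_of_PhiL_mem (H : CoreData π F n t w) (f : Fin n → L[X])
    (hf : PhiL t w f ∈ bigO π) : ∀ a m, (f a).coeff m ∈ A := by
  by_cases hf0 : ∃ i, f i ≠ 0
  swap
  · push Not at hf0
    intro a m
    rw [hf0 a, Polynomial.coeff_zero]
    exact A.zero_mem
  obtain ⟨c, p, hc, hp, hne⟩ := exists_normalize π f hf0
  have h1 : PhiL t w f = algebraMap L (LaurentSeries L) c * iota A (comb t w p) := by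
    rw [PhiL_apply, iota_comb, Finset.mul_sum]
    refine Finset.sum_congr rfl fun i _ => ?_
    rw [hp i, map_mul, aeval_C, ← mul_assoc, ← mul_assoc, ← map_mul, mul_inv_cancel₀ hc, map_one,
      one_mul]
  have hpi : pi π (comb t w p) ≠ 0 := H.pi_comb_ne_zero hne
  have hi0 : iota A (comb t w p) ≠ 0 := iota_ne_zero_of_pi_ne_zero π hpi
  have h2 : algebraMap L (LaurentSeries L) c ∈ bigO π := by
    have h3 : algebraMap L (LaurentSeries L) c =
        PhiL t w f * (iota A 1 / iota A (comb t w p)) := by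
      rw [h1, map_one]
      field_simp
    rw [h3]
    exact (bigO π).mul_mem hf (div_mem_bigO π 1 hpi)
  have hcA : c ∈ A := (algebraMap_mem_gO_iff H.toNorm c).mp h2
  intro a m
  have h4 : f a = C c * (p a).map A.subtype := by
    rw [hp a, ← mul_assoc, ← C_mul, mul_inv_cancel₀ hc, C_1, one_mul]
  rw [h4, Polynomial.coeff_C_mul, Polynomial.coeff_map]
  exact mul_mem hcA ((p a).coeff m).2

/-- **M2c, abstract core (normalised denominator).** -/
theorem exists_on_core (H : CoreData π F n t w) (L₀ : Subfield L) {d : ℕ} (v : Fin d → F)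
    (hli : LinearIndependent L v) (P : A[X]) (hP : P.map π ≠ 0)
    (μ : Fin d → Fin n → L[X]) (hμrat : ∀ i a m, (μ i a).coeff m ∈ L₀)
    (hμ : ∀ i, iota A (evA t P) * (v i : LaurentSeries L) = PhiL t w (μ i)) :
    ∃ T : Matrix (Fin d) (Fin d) L, (∀ i j, T i j ∈ L₀) ∧ IsUnit T.det ∧
      (∀ j, (∑ i, T j i • v i) ∈ gO H.toNorm) ∧
      ∀ α : Fin d → L, (∑ j, α j • ∑ i, T j i • v i) ∈ gO H.toNorm → ∀ j, α j ∈ A := by
  have hPpi : pi π (evA t P) ≠ 0 := H.pi_evA_ne_zero hP
  have hE0 : iota A (evA t P) ≠ 0 := iota_ne_zero_of_pi_ne_zero π hPpi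
  set ν : F →ₗ[L] LaurentSeries L :=
    (LinearMap.mulLeft L (iota A (evA t P))).comp F.val.toLinearMap with hν
  have hν_apply : ∀ y : F, ν y = iota A (evA t P) * (y : LaurentSeries L) := fun y => rfl
  have hlin : ∀ a : Fin d → L, ν (∑ i, a i • v i) = PhiL t w (∑ i, a i • μ i) := by
    intro a
    rw [map_sum, map_sum]
    refine Finset.sum_congr rfl fun i _ => ?_
    rw [map_smul, map_smul, hν_apply, hμ]
  have hcoef : ∀ (a : Fin d → L) (x : Fin n × ℕ),
      (∑ i, a i * (μ i x.1).coeff x.2) = ((∑ i, a i • μ i) x.1).coeff x.2 := by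
    intro a x
    rw [Finset.sum_apply, Polynomial.finsetSum_coeff]
    refine Finset.sum_congr rfl fun i _ => ?_
    rw [Pi.smul_apply, Polynomial.coeff_smul, smul_eq_mul]
  have hinj : ∀ a : Fin d → L, (∑ i, a i • μ i) = 0 → a = 0 := by
    intro a ha
    have h1 := hlin a
    rw [ha, map_zero, hν_apply] at h1
    have h2 : (∑ i, a i • v i) = 0 :=
      Subtype.ext ((mul_eq_zero.mp h1).resolve_left hE0)
    exact funext (Fintype.linearIndependent_iff.mp hli a h2)
  have hli' : LinearIndependent L (fun (i : Fin d) (x : Fin n × ℕ) => (μ i x.1).coeff x.2) := by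
    rw [Fintype.linearIndependent_iff]
    intro a ha
    have : a = 0 := by
      apply hinj
      funext b
      apply Polynomial.ext
      intro m
      have h1 := congrFun ha (b, m)
      rw [← hcoef a (b, m)]
      simpa [Finset.sum_apply] using h1
    intro i
    rw [this]; rfl
  have hsup' : ∀ a : Fin d → L, (∀ i, a i ∈ L₀) → a ≠ 0 →
      ∃ x : Fin n × ℕ, (∑ i, a i * (μ i x.1).coeff x.2) ≠ 0 ∧
        ∀ y : Fin n × ℕ, (∑ i, a i * (μ i y.1).coeff y.2) / (∑ i, a i * (μ i x.1).coeff x.2) ∈ A := by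
    intro a _ ha
    have hne : (∑ i, a i • μ i) ≠ 0 := fun h => ha (hinj a h)
    obtain ⟨x, hx0, hx⟩ := exists_max_coeff A _ hne
    refine ⟨x, ?_, fun y => ?_⟩
    · rw [hcoef]; exact hx0
    · rw [hcoef, hcoef]; exact hx y
  obtain ⟨T, hT, hdet, hTA, hpiv⟩ := exists_orthonormal_pivot A L₀
    (fun (i : Fin d) (x : Fin n × ℕ) => (μ i x.1).coeff x.2) hli' (fun i x => hμrat i x.1 x.2) hsup'
  · refine ⟨T, hT, hdet, fun j => ?_, fun α hα => ?_⟩
    · obtain ⟨p, hp⟩ := exists_lift_poly (A := A) (∑ i, T j i • μ i) (fun a m => by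
        have := hTA j (a, m)
        rwa [hcoef (T j) (a, m)] at this)
      have h1 := hlin (T j)
      rw [hν_apply, show (∑ i, T j i • μ i) = fun a => (p a).map A.subtype from
        (funext hp).symm, PhiL_map] at h1
      exact ⟨comb t w p, evA t P, hPpi, by rw [mul_comm]; exact h1⟩
    · refine hpiv α fun x => ?_
      have h0 : (∑ j, α j • ∑ i, T j i • v i) = ∑ i, (∑ j, α j * T j i) • v i := by
        simp only [Finset.smul_sum, Finset.sum_smul, smul_smul]
        exact Finset.sum_comm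
      have h1 := hlin (fun i => ∑ j, α j * T j i)
      rw [← h0, hν_apply] at h1
      have h2 : PhiL t w (∑ i, (∑ j, α j * T j i) • μ i) ∈ bigO π := by
        rw [← h1]
        exact (bigO π).mul_mem (iota_mem_bigO π _) hα
      have h3 := coeff_mem_of_PhiL_mem H _ h2 x.1 x.2
      rw [← hcoef] at h3
      have h4 : (∑ j, α j * ∑ i, T j i * (μ i x.1).coeff x.2) =
          ∑ i, (∑ j, α j * T j i) * (μ i x.1).coeff x.2 := by
        simp only [Finset.mul_sum, Finset.sum_mul, mul_assoc]
        exact Finset.sum_comm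
      rw [h4]
      exact h3

theorem mem_lifts_subfield_iff (L₀ : Subfield L) (p : L[X]) :
    p ∈ Polynomial.lifts L₀.subtype ↔ ∀ m, p.coeff m ∈ L₀ := by
  rw [Polynomial.lifts_iff_coeff_lifts]
  constructor
  · intro h m
    obtain ⟨x, hx⟩ := h m
    rw [← hx]; exact x.2
  · intro h m
    exact ⟨⟨_, h m⟩, rfl⟩

/-- **M2c, abstract core.** -/
theorem exists_on_of_rat (H : CoreData π F n t w) (L₀ : Subfield L) {d : ℕ} (v : Fin d → F)
    (hli : LinearIndependent L v)
    (hrat : ∀ i, ∃ (g : L[X]) (f : Fin n → L[X]), g ≠ 0 ∧ (∀ m, g.coeff m ∈ L₀) ∧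
      (∀ a m, (f a).coeff m ∈ L₀) ∧
      aeval (iota A t) g * (v i : LaurentSeries L) = PhiL t w f) :
    ∃ T : Matrix (Fin d) (Fin d) L, (∀ i j, T i j ∈ L₀) ∧ IsUnit T.det ∧
      (∀ j, (∑ i, T j i • v i) ∈ gO H.toNorm) ∧
      ∀ α : Fin d → L, (∑ j, α j • ∑ i, T j i • v i) ∈ gO H.toNorm → ∀ j, α j ∈ A := by
  classical
  choose g f hg hgr hfr hgf using hrat
  set G : L[X] := ∏ i, g i with hG
  have hG0 : G ≠ 0 := Finset.prod_ne_zero_iff.mpr fun i _ => hg i
  have hgl : ∀ i, g i ∈ Polynomial.lifts L₀.subtype := fun i =>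
    (mem_lifts_subfield_iff L₀ _).mpr (hgr i)
  have hGl : G ∈ Polynomial.lifts L₀.subtype := prod_mem fun i _ => hgl i
  obtain ⟨x, hx0, hx⟩ := exists_max_coeff A (fun _ : Unit => G) (fun h => hG0 (congrFun h ()))
  set c : L := G.coeff x.2 with hc
  have hcL : c ∈ L₀ := (mem_lifts_subfield_iff L₀ _).mp hGl x.2
  have hCl : (C c⁻¹ : L[X]) ∈ Polynomial.lifts L₀.subtype :=
    Polynomial.C_mem_lifts L₀.subtype ⟨c⁻¹, L₀.inv_mem hcL⟩
  obtain ⟨P, hP⟩ := exists_lift_poly (A := A) (fun _ : Unit => C c⁻¹ * G) (fun _ m => by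
    rw [Polynomial.coeff_C_mul, mul_comm, ← div_eq_mul_inv]
    exact hx ((), m))
  have hPπ : (P ()).map π ≠ 0 := by
    intro h0
    have h1 : (((P ()).coeff x.2 : A) : L) = 1 := by
      have := congrArg (fun q => q.coeff x.2) (hP ())
      simp only [Polynomial.coeff_map, Polynomial.coeff_C_mul] at this
      rw [← hc, inv_mul_cancel₀ hx0] at this
      exact this
    have h2 : (P ()).coeff x.2 = 1 := Subtype.ext h1
    have h3 := congrArg (fun q => q.coeff x.2) h0
    simp only [Polynomial.coeff_map, h2, map_one, Polynomial.coeff_zero] at h3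
    exact one_ne_zero h3
  refine exists_on_core H L₀ v hli (P ()) hPπ
    (fun i a => (C c⁻¹ * ∏ j ∈ Finset.univ.erase i, g j) * f i a) ?_ ?_
  · intro i a
    rw [← mem_lifts_subfield_iff]
    exact mul_mem (mul_mem hCl (prod_mem fun j _ => hgl j))
      ((mem_lifts_subfield_iff L₀ _).mpr (hfr i a))
  · intro i
    rw [← mul_PhiL, ← hgf i, iota_evA, hP (), ← mul_assoc, ← map_mul, hG,
      ← Finset.mul_prod_erase Finset.univ g (Finset.mem_univ i)]
    congr 2
    ring

/-- change of basis by an invertible matrix. -/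
theorem basis_of_matrix {K V : Type*} [Field K] [AddCommGroup V] [Module K V] {d : ℕ}
    (v : Fin d → V) (hli : LinearIndependent K v) (T : Matrix (Fin d) (Fin d) K)
    (hT : IsUnit T.det) :
    LinearIndependent K (fun j => ∑ i, T j i • v i) ∧
      ∀ a ∈ Submodule.span K (Set.range v), ∃ α : Fin d → K, a = ∑ j, α j • ∑ i, T j i • v i := by
  have hsw : ∀ α : Fin d → K, (∑ j, α j • ∑ i, T j i • v i) = ∑ i, (Matrix.vecMul α T) i • v i := by
    intro α
    simp only [Matrix.vecMul, dotProduct, Finset.smul_sum, Finset.sum_smul, smul_smul]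
    exact Finset.sum_comm
  constructor
  · rw [Fintype.linearIndependent_iff]
    intro α hα
    rw [hsw] at hα
    have h1 : Matrix.vecMul α T = 0 := funext (Fintype.linearIndependent_iff.mp hli _ hα)
    have h2 : α = 0 := Matrix.eq_zero_of_vecMul_eq_zero hT.ne_zero h1
    intro i
    rw [h2]; rfl
  · intro a ha
    obtain ⟨β, rfl⟩ := (Submodule.mem_span_range_iff_exists_fun K).mp ha
    refine ⟨Matrix.vecMul β T⁻¹, ?_⟩
    rw [hsw, Matrix.vecMul_vecMul, Matrix.nonsing_inv_mul T hT, Matrix.vecMul_one]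

end Fermat.Agent.S19
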