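import Fermat.Agent.S19.M.Defs
import Fermat.Agent.S19.M.ONAbs
import Fermat.Agent.S27.Rational
import Fermat.Agent.S19.M.FixedBasis
import Fermat.Agent.S19.M.ONCore
import Fermat.Agent.S19.A.Rl
import Fermat.Agent.GAL.DescentMain

/-!
# S19 / M2 : rational orthonormal bases of `L(E)`, `E` a rational divisor

M2b (descent): `V = L(E)` is a finite dimensional `ℚ̄`-subspace of `FM M ⊆ ℚ̄((q))`, stable under `Gam`
(acting on coefficients).  It has a basis of `Gam`-fixed elements: choose a finite set `I` of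
exponents such that `V → ℚ̄^I` (coefficients) is injective, apply `S27.exists_rational_basis_fun`
(`S27/Rational.lean`) to the image; an element of `V` with rational `I`-coefficients is fixed by
`Gam` (`σ u - u ∈ V` has zero `I`-coefficients).
M2c (glue).  WARNING: the Gauss ring `O = bigO` is NOT "all `q`-coefficients in `A`".  Pivot on the
polynomial coordinates of `RED.Gauss.CoreData` (`F = ⊕ ℚ̄(t) w_i`, `t = j`, `w_i = u^i` rational):
(1) common denominator `G` (`CoreData.exists_common_denominator`), replaced by a rational multiple `G'`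
with coefficients in `ℤ_(ℓ)` and non zero reduction (so `G'(t)` is a unit of `O`);
(2) `μ v = PhiL⁻¹ (G'(t) v)` is linear, injective, Galois equivariant, so `μ (v i)` is rational for the
fixed basis `v i` of M2b;
(3) `exists_orthonormal_pivot` with `L₀ = ℚ`, `X = Fin n × ℕ`, `v i (a, m) = (μ (v i) a).coeff m`;
(4) `u j = ∑ T j i • v i`; (5) `PhiL f ∈ bigO → f` has coefficients in `A`
(`Gauss.exists_normalize`, `CoreData.pi_comb_ne_zero`, `algebraMap_mem_gaussData_O_iff`).
-/

set_option autoImplicit false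
set_option synthInstance.maxHeartbeats 400000

open AlgebraicCurve ModularCurve

namespace Fermat.Agent.S19

open Fermat.Agent.S27 Fermat.Agent.RED

variable (M : ℕ) [NeZero M]

/-- **M2b.** -/
theorem exists_fixed_basis (E : Divisor Qb (FM M)) (hE : ∀ σ : Gam, galM M σ • E = E) :
    ∃ (n : ℕ) (v : Fin n → FM M), (∀ j, v j ∈ LS E) ∧ (∀ (σ : Gam) j, galM M σ • v j = v j) ∧
      LinearIndependent Qb v ∧ ∀ a ∈ LS E, a ∈ Submodule.span Qb (Set.range v) :=
  exists_fixed_basis_aux M E hE

/-- a `Gam`-fixed element of `FM M` has rational polynomial coordinates. -/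
theorem exists_rational_coords_fixed {ℓ : ℕ} [Fact ℓ.Prime] {n : ℕ} {u : LaurentSeries ℤ} (hn : 0 < n)
    (h : IsCoreExt M ℓ n u) (y : FM M) (hy : ∀ σ : Gam, galM M σ • y = y) :
    ∃ (g : Polynomial ℚ) (f : Fin n → Polynomial ℚ), g ≠ 0 ∧
      Polynomial.aeval (jqModC Qb) (g.map (algebraMap ℚ Qb)) * (y : LaurentSeries Qb) =
        ∑ i, Polynomial.aeval (jqModC Qb) ((f i).map (algebraMap ℚ Qb)) *
          S28.castLS Qb u ^ (i : ℕ) := by
  have hc : ∀ m, (y : LaurentSeries Qb).coeff m ∈ Set.range (algebraMap ℚ Qb) := by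
    intro m
    apply mem_range_of_fixed
    intro σ
    have h1 := congrArg (fun z : FM M => (z : LaurentSeries Qb).coeff m) (hy σ)
    simp only [coe_arithmeticGalois_smul, coeffMap_coeff] at h1
    exact h1
  obtain ⟨y₀, hy₀⟩ := Fermat.Agent.GAL.Descent.exists_coeffMap_eq (algebraMap ℚ Qb) _ hc
  have hmem : y₀ ∈ laurentBaseChange ℚ (modularFunctionFieldFull M) := by
    rw [← Fermat.Agent.GAL.Descent.coeffMap_mem_laurentBaseChange_iff (algebraMap ℚ Qb), hy₀]
    exact y.2
  obtain ⟨g, f, hg, hrel⟩ := inSpan_of_mem_baseChange ℚ hn h y₀ hmem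
  refine ⟨g, f, ?_, ?_⟩
  · rintro rfl
    exact hg (map_zero _)
  · have h1 := congrArg (coeffMap (algebraMap ℚ Qb)) hrel
    simp only [map_mul, map_sum, map_pow, S28.coeffMap_aeval, S28.coeffMap_castLS,
      coeffMap_jqModC, hy₀] at h1
    exact h1

variable {ℓ : ℕ} [Fact ℓ.Prime] (A : ValuationSubring Qb) (hA : A.LiesOverPrime ℓ) (hℓM : ¬ ℓ ∣ M)

/-- **M2.** -/
theorem exists_rational_on (E : Divisor Qb (FM M)) (hE : ∀ σ : Gam, galM M σ • E = E) :
    ∃ (n : ℕ) (u : Fin n → FM M), (∀ j, u j ∈ LS E) ∧ (∀ j, u j ∈ (gaussData A M hA hℓM).O) ∧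
      (∀ (σ : Gam) j, galM M σ • u j = u j) ∧ LinearIndependent Qb u ∧
      ∀ a ∈ LS E, a ∈ (gaussData A M hA hℓM).O →
        ∃ α : Fin n → A, a = ∑ j, ((α j : A) : Qb) • u j := by
  have := charP_residueField A hA
  have H := coreData (L := Qb) (A := A) (IsLocalRing.residue A) IsLocalRing.residue_surjective
    (card_Q_pos M) (exists_isCoreExt M ℓ hℓM).choose_spec
  obtain ⟨d, v, hvL, hvfix, hvli, hvspan⟩ := exists_fixed_basis M E hE
  obtain ⟨T, hTrat, hdet, hTO, hpiv⟩ := exists_on_of_rat H (algebraMap ℚ Qb).fieldRange v hvli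
    (fun i => by
      obtain ⟨g, f, hg, hgf⟩ := exists_rational_coords_fixed M (card_Q_pos M)
        (exists_isCoreExt M ℓ hℓM).choose_spec (v i) (fun σ => hvfix σ i)
      refine ⟨g.map (algebraMap ℚ Qb), fun a => (f a).map (algebraMap ℚ Qb),
        (Polynomial.map_ne_zero_iff (algebraMap ℚ Qb).injective).mpr hg,
        fun m => ⟨g.coeff m, by rw [Polynomial.coeff_map]⟩,
        fun a m => ⟨(f a).coeff m, by rw [Polynomial.coeff_map]⟩, ?_⟩
      rw [Gauss.PhiL_apply]
      simp only [iota_jqModC, map_pow, iota_castLS]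
      exact hgf)
  obtain ⟨hli, hsp⟩ := basis_of_matrix v hvli T hdet
  refine ⟨d, fun j => ∑ i, T j i • v i, fun j => ?_, hTO, fun σ j => ?_, hli, fun a haL haO => ?_⟩
  · exact sum_mem fun i _ => (LS E).smul_mem _ (hvL i)
  · rw [Finset.smul_sum]
    refine Finset.sum_congr rfl fun i _ => ?_
    obtain ⟨q, hq⟩ := hTrat j i
    rw [Algebra.smul_def, smul_mul', SemilinearAut.smul_algebraMap, hvfix σ i, ← hq]
    congr 2
    exact σ.commutes q
  · obtain ⟨α, rfl⟩ := hsp a (hvspan a haL)
    exact ⟨fun j => ⟨α j, hpiv α haO j⟩, rfl⟩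

end Fermat.Agent.S19
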