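import Fermat.Agent.S19.M.Defs

/-!
# S19 / M1 : the reduction of places for the Gauss datum (from `RED.DeuringHyp`)

`H : DeuringHyp R g c`.  `H.exists_placeMap` gives `r` (surjective, (P1), `red L(D) = L(r_* D)` for
`c + g ≤ deg D`).  `generic`: `H.isPoleDiv_Rp`, `IsPoleDiv.exists_generic`, and
`R.Rp D = D.mapDomain r` (both are the pole divisor of `red L(D) = L(r_* D)`:
`H.redSub_LS_eq`, `IsPoleDiv.unique`; or redo `exists_generic` for `L(r_* D)` directly with
`r` surjective and the dimension count).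
-/

set_option autoImplicit false

open AlgebraicCurve

namespace Fermat.Agent.S19

open Fermat.Agent.S27 Fermat.Agent.RED

variable {K F k Fb : Type*} [Field K] [Field F] [Algebra K F] [Field k] [Field Fb] [Algebra k Fb]

/-- **M1** (abstract). -/
theorem exists_placeMap_generic {R : RedData K F k Fb} {g c : ℤ} (H : DeuringHyp R g c) :
    ∃ r : Place K F → Place k Fb, Function.Surjective r ∧
      (∀ (x : R.O), R.red x ≠ 0 → ∀ D : Divisor K F, (∀ v : Place K F, D v = v.ord (x : F)) →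
        ∀ Q : Place k Fb, (D.mapDomain r) Q = Q.ord (R.red x)) ∧
      ∀ D : Divisor K F, c + g ≤ Divisor.degree D → ∀ S : Finset (Place k Fb),
        ∃ x : R.O, (x : F) ∈ LS D ∧ R.red x ≠ 0 ∧
          ∀ Q ∈ S, Q.ord (R.red x) = -((D.mapDomain r) Q) := by
  classical
  obtain ⟨r, hsurj, hP1, hLS⟩ := H.exists_placeMap
  refine ⟨r, hsurj, hP1, fun D hD S => ?_⟩
  have := H.infinite_bot
  have hpole := H.isPoleDiv_Rp hD
  have hle : ∀ Q, R.Rp D Q ≤ (D.mapDomain r) Q := by
    intro Q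
    obtain ⟨u, hu, hu0, hQ⟩ := hpole.2 Q
    rw [hLS D hD] at hu
    have := (mem_LS_of_ne_zero hu0).mp hu Q
    omega
  have hdeg : Divisor.degree (D.mapDomain r) = Divisor.degree D := by
    rw [degree_eq_sum H.deg_bot, degree_eq_sum H.deg_top,
      Finsupp.sum_mapDomain_index (fun _ => rfl) (fun _ _ _ => rfl)]
  have heq : R.Rp D = D.mapDomain r :=
    eq_of_le_of_degree H.deg_bot hle (by rw [hdeg, H.degree_Rp hD])
  obtain ⟨u, hu, hu0, hQ⟩ := hpole.exists_generic (H.redSub_ne_bot hD) S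
  obtain ⟨x, hxD, hx⟩ := R.mem_redSub.mp hu
  refine ⟨x, hxD, by rw [hx]; exact hu0, fun Q hQS => ?_⟩
  rw [hx, hQ Q hQS, heq]

end Fermat.Agent.S19
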