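import Fermat.Agent.S19.M.Defs
import Fermat.Agent.S19.C.Ev
import Fermat.Agent.RED.Cusp.Final
import Fermat.Agent.RED.RB.CharZero
import Fermat.Agent.RED.NonSpecial

/-!
# S19 / M3 : rational effective divisors whose reduction avoids a finite set

`r` any map of places satisfying (P1) for the Gauss datum `R = gaussData A M hA hℓM`.
(a) `r_* Pol(j) = Pol(j̄)`: by (P1) for `j`, `Pol(j̄) ≤ r_* Pol(j)`; both have degree `ψ(M)`
    (`RB.finrank_jF`, `Cusp.finrank_jb`, `degree_polarDiv_eq`).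
(b) so for `c ∈ A`, (P1) for `j - c` gives `r_* Z(j - c) = Z(j̄ - c̄)`: if `j(v) = c` then `j̄ - c̄`
    vanishes at `r v`.
(c) the residue field is algebraic over `𝔽_ℓ`: there are arbitrarily large `a` with `s^(ℓ^a) = s` for
    all `s` in the finite set `{j̄(Q) | Q ∈ S not a pole of j̄}`.  `P = X^(ℓ^a) - X + 1`, `f = P(j)`,
    `E` = divisor of zeros of `f`.  `f` is `Gam`-fixed, so `E` is rational; `deg E ≥ ℓ^a`.
    If `v ∈ supp E`, `c = j(v)` is a root of `P`, integral, so `c ∈ A`, `j̄(r v) = c̄` is a root of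
    `P̄`; but `P̄(s) = 1` for `s = j̄(Q)`, `Q ∈ S`.
-/

set_option autoImplicit false
set_option synthInstance.maxHeartbeats 400000
set_option linter.style.haveILetI false
set_option linter.unusedSectionVars false

open AlgebraicCurve ModularCurve

namespace Fermat.Agent.S19

open Fermat.Agent.S27 Fermat.Agent.RED Fermat.Agent.S24

namespace RatE

section Res

open Polynomial

/-- the residue field of a valuation ring of `ℚ̄` over `ℓ` is algebraic over `𝔽_ℓ`. -/
theorem exists_pow_eq_self {ℓ : ℕ} [Fact ℓ.Prime] (A : ValuationSubring Qb)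
    (hA : A.LiesOverPrime ℓ) (s : IsLocalRing.ResidueField A) :
    ∃ a : ℕ, 0 < a ∧ s ^ (ℓ ^ a) = s := by
  have hℓ : ℓ.Prime := Fact.out
  haveI := charP_residueField A hA
  letI : Algebra (ZMod ℓ) (IsLocalRing.ResidueField A) := ZMod.algebra _ ℓ
  obtain ⟨x, rfl⟩ := IsLocalRing.residue_surjective s
  -- a primitive integral polynomial killing `x`
  have halg : IsAlgebraic ℤ (x : Qb) :=
    (IsFractionRing.isAlgebraic_iff ℤ ℚ Qb).2 (Algebra.IsAlgebraic.isAlgebraic _)
  obtain ⟨P, hP0, hP⟩ := halg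
  set Q := P.primPart with hQ
  have hQx : aeval (x : Qb) Q = 0 := by
    have h1 := P.eq_C_content_mul_primPart
    rw [h1, map_mul, aeval_C] at hP
    rcases mul_eq_zero.1 hP with h | h
    · exfalso
      have : (P.content : Qb) = 0 := by simpa using h
      exact (content_eq_zero_iff.not.2 hP0) (by exact_mod_cast this)
    · exact h
  have hQA : aeval x Q = 0 := by
    apply Subtype.ext
    have : ((aeval x Q : A) : Qb) = aeval (x : Qb) Q := by
      have := (aeval_algHom_apply (Algebra.ofId A Qb |>.restrictScalars ℤ) x Q).symm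
      simpa using this
    rw [this, hQx]; rfl
  have hQbar : Q.map (Int.castRingHom (ZMod ℓ)) ≠ 0 := by
    intro h0
    have hdvd : C (ℓ : ℤ) ∣ Q := by
      rw [C_dvd_iff_dvd_coeff]
      intro i
      have := congrArg (fun p => p.coeff i) h0
      simp only [coeff_map, coeff_zero] at this
      exact (ZMod.intCast_zmod_eq_zero_iff_dvd _ _).1 (by simpa using this)
    have := P.isPrimitive_primPart (ℓ : ℤ) hdvd
    rw [Int.isUnit_iff] at this
    have h2 := hℓ.two_le
    omega
  have halg2 : IsAlgebraic (ZMod ℓ) (IsLocalRing.residue A x) := by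
    refine ⟨_, hQbar, ?_⟩
    have h3 : aeval (IsLocalRing.residue A x) (Q.map (Int.castRingHom (ZMod ℓ))) =
        aeval (IsLocalRing.residue A x) Q := by
      rw [aeval_def, eval₂_map, aeval_def]
      congr 1
      exact RingHom.ext_int _ _
    rw [h3]
    have := congrArg (IsLocalRing.residue A) hQA
    rw [map_zero] at this
    rw [← this]
    exact (Polynomial.aeval_algHom_apply
      ((IsLocalRing.residue A).toIntAlgHom) x Q)
  set s := IsLocalRing.residue A x
  let E := IntermediateField.adjoin (ZMod ℓ) ({s} : Set (IsLocalRing.ResidueField A))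
  haveI : FiniteDimensional (ZMod ℓ) E := IntermediateField.adjoin.finiteDimensional halg2.isIntegral
  haveI : Finite E := Module.finite_of_finite (ZMod ℓ)
  letI : Fintype E := Fintype.ofFinite E
  have h1 := FiniteField.pow_card (IntermediateField.AdjoinSimple.gen (ZMod ℓ) s)
  rw [Module.card_eq_pow_finrank (K := ZMod ℓ) (V := E), ZMod.card] at h1
  refine ⟨Module.finrank (ZMod ℓ) E, Module.finrank_pos, ?_⟩
  have := congrArg (fun y : E => (y : IsLocalRing.ResidueField A)) h1
  simpa using this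

theorem pow_pow_mul_eq_self {k : Type*} [Monoid k] {s : k} {ℓ b : ℕ} (h : s ^ (ℓ ^ b) = s) (m : ℕ) :
    s ^ (ℓ ^ (b * m)) = s := by
  induction m with
  | zero => simp
  | succ m ih => rw [Nat.mul_succ, pow_add, pow_mul, ih, h]

theorem exists_common_exp {k : Type*} [Monoid k] {ℓ : ℕ}
    (halg : ∀ s : k, ∃ a : ℕ, 0 < a ∧ s ^ (ℓ ^ a) = s) (T : Finset k) (N : ℕ) :
    ∃ a : ℕ, N < a ∧ ∀ s ∈ T, s ^ (ℓ ^ a) = s := by
  classical
  choose e he0 he using halg
  refine ⟨(N + 1) * ∏ s ∈ T, e s, ?_, fun s hs => ?_⟩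
  · have : 0 < ∏ s ∈ T, e s := Finset.prod_pos fun s _ => he0 s
    nlinarith
  · rw [← Finset.mul_prod_erase T e hs, mul_left_comm]
    exact pow_pow_mul_eq_self (he s) _

end Res

section FF

variable {K F : Type*} [Field K] [Field F] [Algebra K F]

theorem ord_AS_of_neg (v : Place K F) {x : F} (h : v.ord x < 0) {n : ℕ} (hn : 2 ≤ n) :
    v.ord (x ^ n - x + 1) = n * v.ord x := by
  have hx0 : x ≠ 0 := by rintro rfl; simp at h
  have h1 : v.ord (-(x - algebraMap K F 1)) = v.ord x := by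
    rw [Place.ord_neg, ord_sub_algebraMap_of_neg v h]
  have h2 : -(x - algebraMap K F 1) ≠ 0 := by
    intro h0
    rw [h0, v.ord_zero] at h1
    omega
  have e : x ^ n - x + 1 = x ^ n + -(x - algebraMap K F 1) := by rw [map_one]; ring
  rw [e, Place.ord_add_eq_of_lt v (pow_ne_zero _ hx0) h2, Place.ord_pow]
  rw [Place.ord_pow, h1]
  have : (2 : ℤ) ≤ n := by exact_mod_cast hn
  nlinarith

theorem ord_AS_nonneg (v : Place K F) {x : F} (h : 0 ≤ v.ord x) (n : ℕ) :
    0 ≤ v.ord (x ^ n - x + 1) := by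
  have hx : x ∈ v.toValuationSubring := by
    rcases eq_or_ne x 0 with rfl | hx0
    · exact v.toValuationSubring.zero_mem
    · exact (Place.mem_iff_ord_nonneg v hx0).2 h
  exact Place.ord_nonneg_of_mem v (v.toValuationSubring.add_mem _ _
    (v.toValuationSubring.sub_mem (v.toValuationSubring.pow_mem hx n) hx)
    v.toValuationSubring.one_mem)

theorem polarDiv_AS {j : F} (hj : IsSepParam K j) (x : F) {n : ℕ} (hn : 2 ≤ n) :
    polarDiv K (x ^ n - x + 1) = n • polarDiv K x := by
  ext v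
  rw [Finsupp.smul_apply, hj.polarDiv_apply, hj.polarDiv_apply, nsmul_eq_mul]
  rcases lt_or_ge (v.ord x) 0 with h | h
  · rw [ord_AS_of_neg v h hn, max_eq_left (by
      have : (0 : ℤ) ≤ n := Int.natCast_nonneg n
      nlinarith), max_eq_left (by omega)]
    ring
  · have := ord_AS_nonneg v h n
    rw [max_eq_right (by omega), max_eq_right (by omega), mul_zero]

theorem dv_eq_sub {j : F} (hj : IsSepParam K j) (x : F) :
    dv K x = polarDiv K x⁻¹ - polarDiv K x := by
  ext v
  rw [Finsupp.sub_apply, hj.dv_apply, hj.polarDiv_apply, hj.polarDiv_apply, v.ord_inv, neg_neg]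
  rcases le_total (v.ord x) 0 with h | h
  · rw [max_eq_right h, max_eq_left (by omega)]; ring
  · rw [max_eq_left h, max_eq_right (by omega)]; ring

theorem mapDomain_nonneg {α β : Type*} (r : α → β) {D : α →₀ ℤ} (hD : 0 ≤ D) (Q : β) :
    0 ≤ (D.mapDomain r) Q := by
  classical
  rw [mapDomain_apply_eq_sum]
  refine Finset.sum_nonneg fun w _ => ?_
  split_ifs
  · exact hD w
  · exact le_rfl

theorem mapDomain_sub_apply {α β : Type*} (r : α → β) (D E : α →₀ ℤ) (Q : β) :
    ((D - E).mapDomain r) Q = (D.mapDomain r) Q - (E.mapDomain r) Q := by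
  rw [← Finsupp.mapDomain.addMonoidHom_apply r (D - E), map_sub, Finsupp.sub_apply,
    Finsupp.mapDomain.addMonoidHom_apply, Finsupp.mapDomain.addMonoidHom_apply]

end FF

section Abs

variable {K F k Fb : Type*} [Field K] [Field F] [Algebra K F] [Field k] [Field Fb] [Algebra k Fb]

theorem exists_divisor_off [IsAlgClosed K] [IsAlgClosed k] {j : F} (hj : IsSepParam K j)
    {jb : Fb} (hjb : IsSepParam k jb) (R : RedData K F k Fb) (hjO : j ∈ R.O)
    (hred : R.red ⟨j, hjO⟩ = jb)
    (hdeg : Divisor.degree (polarDiv K j) = Divisor.degree (polarDiv k jb))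
    (r : Place K F → Place k Fb)
    (hP1 : ∀ (x : R.O), R.red x ≠ 0 →
      ∀ D : Divisor K F, (∀ v : Place K F, D v = v.ord (x : F)) →
        ∀ Q : Place k Fb, (D.mapDomain r) Q = Q.ord (R.red x))
    (ℓ : ℕ) [Fact ℓ.Prime] [CharP k ℓ] (halg : ∀ s : k, ∃ a : ℕ, 0 < a ∧ s ^ (ℓ ^ a) = s)
    (S : Finset (Place k Fb)) (n : ℤ) :
    ∃ a : ℕ, n ≤ Divisor.degree (polarDiv K (j ^ (ℓ ^ a) - j + 1)⁻¹) ∧
      ∀ v ∈ (polarDiv K (j ^ (ℓ ^ a) - j + 1)⁻¹).support, r v ∉ S := by
  classical
  have hℓ : ℓ.Prime := Fact.out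
  -- push-forward of zeros minus poles
  have hpush : ∀ x : R.O, R.red x ≠ 0 → ∀ Q : Place k Fb,
      ((polarDiv K (x : F)⁻¹).mapDomain r) Q - ((polarDiv K (x : F)).mapDomain r) Q
        = Q.ord (R.red x) := by
    intro x hx Q
    rw [← mapDomain_sub_apply, ← dv_eq_sub hj]
    exact hP1 x hx _ (fun v => hj.dv_apply _ v) Q
  -- (a)
  have ha : (polarDiv K j).mapDomain r = polarDiv k jb := by
    have hle : polarDiv k jb ≤ (polarDiv K j).mapDomain r := by
      intro Q
      rw [hjb.polarDiv_apply]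
      have h1 := hpush ⟨j, hjO⟩ (by rw [hred]; exact hjb.ne_zero) Q
      rw [hred] at h1
      have h2 := mapDomain_nonneg r (polarDiv_nonneg (K := K) j⁻¹) Q
      have h3 := mapDomain_nonneg r (polarDiv_nonneg (K := K) j) Q
      simp only at h1
      exact max_le (by omega) h3
    have h0 := hjb.eq_zero_of_degree_eq_zero (sub_nonneg.2 hle) (by
      rw [map_sub, degree_mapDomain_of_deg_eq_one r hj.deg_eq_one hjb.deg_eq_one, hdeg, sub_self])
    exact sub_eq_zero.1 h0
  -- the values of `jb` at the points of `S`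
  have hval : ∀ Q : Place k Fb, ∃ s : k, 0 ≤ Q.ord jb → 0 < Q.ord (jb - algebraMap k Fb s) := by
    intro Q
    by_cases hQ : 0 ≤ Q.ord jb
    · obtain ⟨s, hs⟩ := hjb.exists_value Q ((Place.mem_iff_ord_nonneg Q hjb.ne_zero).2 hQ)
      rcases hs with hs | hs
      · exact absurd (sub_eq_zero.2 hs) (hjb.sub_const s).ne_zero
      · exact ⟨s, fun _ => hs⟩
    · exact ⟨0, fun h => absurd h hQ⟩
  choose val hval using hval
  obtain ⟨a, haN, hafix⟩ := exists_common_exp halg (S.image val) n.toNat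
  set N := ℓ ^ a with hN
  have haN' : a < N := Nat.lt_pow_self hℓ.one_lt
  have hN2 : 2 ≤ N := by omega
  set f : F := j ^ N - j + 1 with hf
  set fb : Fb := jb ^ N - jb + 1 with hfb
  let fO : R.O := ⟨j, hjO⟩ ^ N - ⟨j, hjO⟩ + 1
  have hfO : (fO : F) = f := rfl
  have hredf : R.red fO = fb := by
    simp only [fO, map_add, map_sub, map_pow, map_one, hred, hfb]
  have hpolf : polarDiv K f = N • polarDiv K j := polarDiv_AS hj j hN2
  have hpolfb : polarDiv k fb = N • polarDiv k jb := polarDiv_AS hjb jb hN2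
  have hdegpos : 0 < Divisor.degree (polarDiv k jb) := hjb.degree_polarDiv_pos
  have hfb0 : fb ≠ 0 := by
    intro h0
    have h1 : polarDiv k fb = 0 := by
      ext Q
      rw [hjb.polarDiv_apply, h0]; simp
    rw [hpolfb] at h1
    have h2 := congrArg Divisor.degree h1
    rw [map_nsmul, map_zero, nsmul_eq_mul] at h2
    have : (0 : ℤ) < N := by exact_mod_cast (by omega : 0 < N)
    nlinarith
  refine ⟨a, ?_, ?_⟩
  · have h1 := hj.degree_dv f
    rw [dv_eq_sub hj, map_sub, hpolf, map_nsmul, nsmul_eq_mul, hdeg] at h1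
    have h2 : n ≤ (N : ℤ) := by
      have : n.toNat < N := by omega
      omega
    have h3 : (0 : ℤ) ≤ N := Int.natCast_nonneg N
    nlinarith
  · intro v hv hvS
    have hv0 : 0 < polarDiv K f⁻¹ v :=
      lt_of_le_of_ne (polarDiv_nonneg (K := K) f⁻¹ v) (Ne.symm (Finsupp.mem_support_iff.1 hv))
    have h1 := mapDomain_apply_pos r (polarDiv K f⁻¹) v
      (fun w _ => polarDiv_nonneg (K := K) f⁻¹ w) hv0
    have h2 := hpush fO (by rw [hredf]; exact hfb0) (r v)
    rw [hfO, hredf, hpolf, Finsupp.mapDomain_smul, ha, ← hpolfb, hjb.polarDiv_apply] at h2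
    -- so `fb` vanishes at `r v`
    have h3 : 0 < (r v).ord fb := by
      rcases le_total (-(r v).ord fb) 0 with h | h
      · rw [max_eq_right h] at h2; omega
      · rw [max_eq_left h] at h2; omega
    rcases lt_or_ge ((r v).ord jb) 0 with h | h
    · have := ord_AS_of_neg (r v) h hN2
      rw [← hfb] at this
      have hN0 : (0 : ℤ) ≤ N := Int.natCast_nonneg N
      nlinarith
    · have h4 := hval (r v) h
      have h5 : val (r v) ^ N = val (r v) := hafix _ (Finset.mem_image_of_mem val hvS)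
      set s := val (r v)
      set t : Fb := jb - algebraMap k Fb s with ht
      haveI : CharP Fb ℓ := charP_of_injective_algebraMap (algebraMap k Fb).injective ℓ
      have h6 : fb = 1 + (t ^ N - t) := by
        rw [ht, hN, sub_pow_char_pow, ← map_pow, ← hN, h5, hfb]
        ring
      have ht0 : t ≠ 0 := by rintro h0; rw [h0] at h4; simp at h4
      rcases eq_or_ne (t ^ N - t) 0 with h7 | h7
      · rw [h6, h7, add_zero, Place.ord_one] at h3
        exact lt_irrefl _ h3
      · have h8 : 0 < (r v).ord (t ^ N - t) := by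
          have := Place.ord_add_ge (r v) (pow_ne_zero N ht0) (neg_ne_zero.2 ht0)
            (by rwa [← sub_eq_add_neg])
          rw [← sub_eq_add_neg, Place.ord_neg, Place.ord_pow] at this
          have hN0 : (0 : ℤ) < N := by exact_mod_cast (by omega : 0 < N)
          have h9 : 0 < (N : ℤ) * (r v).ord t := mul_pos hN0 h4
          exact lt_of_lt_of_le (lt_min h9 h4) this
        rw [h6, Place.ord_add_eq_of_lt (r v) one_ne_zero h7 (by rwa [Place.ord_one]),
          Place.ord_one] at h3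
        exact lt_irrefl _ h3

end Abs

end RatE

variable (M : ℕ) [NeZero M] {ℓ : ℕ} [Fact ℓ.Prime] (A : ValuationSubring Qb)
  (hA : A.LiesOverPrime ℓ) (hℓM : ¬ ℓ ∣ M)

namespace RatE

theorem galM_smul_jF (σ : Gam) : galM M σ • jF M = jF M := by
  apply Subtype.ext
  show coeffMap (σ : Qb →+* Qb) ((jF M : FN M) : LaurentSeries Qb) = _
  rw [RED.Desc.coe_jF, coeffMap_jqModC]

theorem coe_jF_iota : ((jF M : FN M) : LaurentSeries Qb) = Gauss.iota A (jqModC A) := by
  rw [RED.Desc.coe_jF, iota_jqModC]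

theorem jF_mem_O : jF M ∈ (gaussData A M hA hℓM).O := by
  have h : Gauss.iota A (jqModC A) ∈ modularFunctionFieldBar M := by
    rw [← coe_jF_iota M A]; exact (jF M).2
  have h2 : jF M = ⟨Gauss.iota A (jqModC A), h⟩ := Subtype.ext (coe_jF_iota M A)
  rw [h2]
  exact Gauss.integral_mem_gO (gaussNormBar A M hA hℓM) h

theorem red_jF : (gaussData A M hA hℓM).red ⟨jF M, jF_mem_O M A hA hℓM⟩ = Cusp.jb (kA A) M := by
  have h : Gauss.iota A (jqModC A) ∈ modularFunctionFieldBar M := by
    rw [← coe_jF_iota M A]; exact (jF M).2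
  have h2 : (⟨jF M, jF_mem_O M A hA hℓM⟩ : Gauss.gO (gaussNormBar A M hA hℓM)) =
      ⟨⟨Gauss.iota A (jqModC A), h⟩, Gauss.integral_mem_gO (gaussNormBar A M hA hℓM) h⟩ :=
    Subtype.ext (Subtype.ext (coe_jF_iota M A))
  apply Subtype.ext
  have h3 := coe_gaussData_red A M hA hℓM ⟨jF M, jF_mem_O M A hA hℓM⟩
  refine h3.trans ?_
  rw [h2, Gauss.gRed_integral, pi_jqModC]
  rfl

end RatE

/-- **M3.** -/
theorem exists_rational_divisor_off (r : Place Qb (FM M) → Place (kA A) (FbM A M))
    (hP1 : ∀ (x : (gaussData A M hA hℓM).O), (gaussData A M hA hℓM).red x ≠ 0 →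
      ∀ D : Divisor Qb (FM M), (∀ v : Place Qb (FM M), D v = v.ord (x : FM M)) →
        ∀ Q : Place (kA A) (FbM A M),
          (D.mapDomain r) Q = Q.ord ((gaussData A M hA hℓM).red x))
    (S : Finset (Place (kA A) (FbM A M))) (n : ℤ) :
    ∃ E : Divisor Qb (FM M), 0 ≤ E ∧ n ≤ Divisor.degree E ∧
      (∀ σ : Gam, galM M σ • E = E) ∧ ∀ v ∈ E.support, r v ∉ S := by
  haveI := charP_residueField A hA
  haveI := isAlgClosed_resField A
  have hj : IsSepParam Qb (jF M) := RB.isSepParam_jF M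
  have hjb : IsSepParam (kA A) (Cusp.jb (kA A) M) := Cusp.isSepParam_jb M (kA A) ℓ hℓM
  obtain ⟨a, ha1, ha2⟩ := RatE.exists_divisor_off hj hjb (gaussData A M hA hℓM)
    (RatE.jF_mem_O M A hA hℓM) (RatE.red_jF M A hA hℓM)
    (by rw [hj.degree_polarDiv, hjb.degree_polarDiv, RB.finrank_jF, Cusp.finrank_jb M (kA A) ℓ hℓM])
    r hP1 ℓ (RatE.exists_pow_eq_self A hA) S n
  refine ⟨_, polarDiv_nonneg _, ha1, fun σ => ?_, ha2⟩
  have hf : galM M σ • (jF M ^ (ℓ ^ a) - jF M + 1)⁻¹ = (jF M ^ (ℓ ^ a) - jF M + 1)⁻¹ := by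
    rw [smul_inv'', smul_add, smul_sub, smul_pow', RatE.galM_smul_jF, smul_one]
  ext v
  rw [SemilinearAut.divisor_smul_apply, hj.polarDiv_apply, hj.polarDiv_apply]
  have := SemilinearAut.ord_smul (galM M σ) ((galM M σ)⁻¹ • v) (jF M ^ (ℓ ^ a) - jF M + 1)⁻¹
  rw [smul_inv_smul, hf] at this
  rw [this]

end Fermat.Agent.S19
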