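import Fermat.Agent.S19.M.Const
import Fermat.Agent.S19.M.Place
import Fermat.Agent.S19.M.ON
import Fermat.Agent.S19.M.RatE
import Fermat.Agent.RED.S37.Exist

/-!
# S19 / M : the reduction package at a level `M` with `4 ∣ M` or `9 ∣ M`, `ℓ ∤ M`
-/

set_option autoImplicit false
set_option synthInstance.maxHeartbeats 400000

open AlgebraicCurve ModularCurve

namespace Fermat.Agent.S19

open Fermat.Agent.S27 Fermat.Agent.RED

variable (M : ℕ) [NeZero M] {ℓ : ℕ} [Fact ℓ.Prime] (A : ValuationSubring Qb)
  (hA : A.LiesOverPrime ℓ) (hℓM : ¬ ℓ ∣ M)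

theorem order_coeffMap_aux {C D : Type*} [Field C] [Field D] (σ : C →+* D) (x : LaurentSeries C) :
    (coeffMap σ x).order = x.order := by
  rcases eq_or_ne x 0 with rfl | hx
  · rw [map_zero, HahnSeries.order_zero, HahnSeries.order_zero]
  have hx' : coeffMap σ x ≠ 0 := (map_ne_zero (coeffMap σ)).mpr hx
  refine le_antisymm ?_ ?_
  · refine HahnSeries.order_le_of_coeff_ne_zero ?_
    rw [coeffMap_coeff]
    exact (map_ne_zero σ).mpr (fun h => hx (HahnSeries.coeff_order_eq_zero.mp h))
  · refine HahnSeries.order_le_of_coeff_ne_zero ?_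
    have : (ModularCurve.coeffMap σ x).coeff (ModularCurve.coeffMap σ x).order ≠ 0 :=
      fun h => hx' (HahnSeries.coeff_order_eq_zero.mp h)
    rw [coeffMap_coeff] at this
    exact (map_ne_zero σ).mp this

/-- **M4b.** the place at infinity is rational (`RED.Desc.exists_place_infty`: `ord = q`-order,
which is invariant under the action on coefficients; a place is determined by its `ord`). -/
theorem exists_rational_place : ∃ v : Place Qb (FM M), ∀ σ : Gam, galM M σ • v = v := by
  obtain ⟨v, hv⟩ := Fermat.Agent.RED.Desc.exists_place_infty M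
  refine ⟨v, fun σ => ?_⟩
  have hord : ∀ f : FM M, f ≠ 0 → (galM M σ • v).ord f = v.ord f := by
    intro f hf
    have h1 := SemilinearAut.ord_smul (galM M σ) v ((galM M σ)⁻¹ • f)
    rw [smul_inv_smul] at h1
    have hf' : (galM M σ)⁻¹ • f ≠ 0 := by
      intro h
      apply hf
      have := congrArg (fun x => galM M σ • x) h
      simpa using this
    rw [h1, hv _ hf', hv _ hf]
    have h2 : ((galM M σ • ((galM M σ)⁻¹ • f) : FM M) : LaurentSeries Qb).order =
        (((galM M σ)⁻¹ • f : FM M) : LaurentSeries Qb).order := by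
      rw [coe_arithmeticGalois_smul]
      exact order_coeffMap_aux _ _
    rw [smul_inv_smul] at h2
    exact h2.symm
  have hring : (galM M σ • v).toValuationSubring = v.toValuationSubring := by
    ext f
    by_cases hf : f = 0
    · subst hf; simp [zero_mem]
    · rw [S24.Place.mem_iff_ord_nonneg _ hf, S24.Place.mem_iff_ord_nonneg _ hf, hord f hf]
  cases hgv : galM M σ • v
  cases v
  simp only [hgv] at hring
  simp only [Place.mk.injEq]
  exact hring

/-- **M5.** `DeuringHyp` at level `M` (as in `RED/S37/Exist.lean`: `exists_deuringHyp_gaussData` +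
`gen_of_rhRel` + `RR.rhRel`). -/
theorem exists_deuringHyp_level (h49 : 4 ∣ M ∨ 9 ∣ M) :
    ∃ g c : ℤ, DeuringHyp (gaussData A M hA hℓM) g c := by
  have := charP_residueField A hA
  have := isAlgClosed_residueField A
  obtain ⟨c, H⟩ := exists_deuringHyp_gaussData M A hA hℓM
    (gen_of_rhRel M
      (fun _ _ _ _ _ _ _ _ _ _ _ _ h1 h2 => Fermat.Agent.RR.rhRel h1 h2) h49 _ hℓM)
  exact ⟨_, c, H⟩

include hA hℓM in
/-- **M (interface of part M).** -/
theorem exists_redPkg (h49 : 4 ∣ M ∨ 9 ∣ M) :
    Nonempty (RedPkg A (FM M) (galM M) (kA A) (FbM A M)) := by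
  obtain ⟨g, c, H⟩ := exists_deuringHyp_level M A hA hℓM h49
  obtain ⟨r, -, hP1, hgen⟩ := exists_placeMap_generic H
  obtain ⟨v, hv⟩ := exists_rational_place M
  exact ⟨{
    R := gaussData A M hA hℓM
    r := r
    c₀ := c + g
    Pinf := v
    baseAut_gal := fun _ _ => rfl
    mem_O_iff := algebraMap_mem_gaussData_O_iff M A hA hℓM
    P1 := hP1
    generic := hgen
    on := exists_rational_on M A hA hℓM
    ratE := exists_rational_divisor_off M A hA hℓM r hP1
    gal_Pinf := hv }⟩

end Fermat.Agent.S19
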