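import Fermat.Agent.S19.M.Defs

/-!
# S19 / M4a : the constants of the Gauss ring
-/

set_option autoImplicit false
set_option synthInstance.maxHeartbeats 400000

open AlgebraicCurve ModularCurve

namespace Fermat.Agent.S19

open Fermat.Agent.S27 Fermat.Agent.RED

variable (M : ℕ) [NeZero M] {ℓ : ℕ} [Fact ℓ.Prime] (A : ValuationSubring Qb)
  (hA : A.LiesOverPrime ℓ) (hℓM : ¬ ℓ ∣ M)

/-- **M4a.** constants of the Gauss ring. -/
theorem algebraMap_mem_gaussData_O_iff (c : Qb) :
    algebraMap Qb (FM M) c ∈ (gaussData A M hA hℓM).O ↔ c ∈ A :=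
  Gauss.algebraMap_mem_gO_iff (gaussNormBar A M hA hℓM) c

end Fermat.Agent.S19
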