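import Fermat.Agent.S19.C.Defs
import Fermat.Agent.RED.Deuring.Modular
import Fermat.Agent.RED.Desc.Infty

/-!
# S19 / part M : the reduction package for the modular function fields.  Notation
-/

set_option autoImplicit false
set_option synthInstance.maxHeartbeats 400000

noncomputable section

open AlgebraicCurve ModularCurve

namespace Fermat.Agent.S19

open Fermat.Agent.S27 Fermat.Agent.RED

/-- the function field of `X₀(M)` over `ℚ̄`. -/
abbrev FM (M : ℕ) : Type := ↥(modularFunctionFieldBar M)

/-- the residue field of `A`. -/
abbrev kA (A : ValuationSubring Qb) : Type := IsLocalRing.ResidueField A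

/-- the function field of `X₀(M)` over the residue field. -/
abbrev FbM (A : ValuationSubring Qb) (M : ℕ) : Type := ↥(modularFunctionFieldFullC (kA A) M)

/-- the Galois action on `FM M` (on the coefficients of `q`-expansions). -/
abbrev galM (M : ℕ) : Gam →* SemilinearAut Qb (FM M) :=
  arithmeticGalois (modularFunctionFieldFull M)

instance instIsFF_FM (M : ℕ) [NeZero M] : IsFF Qb (FM M) :=
  ⟨⟨S24.jF M, Fermat.Agent.RED.Desc.isFiniteParam_jF M⟩⟩

end Fermat.Agent.S19
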