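import Fermat.Agent.S19.M.Defs
import Fermat.Agent.S19.A.Rl
import Fermat.Agent.GAL.DescentMain

/-!
# S19 / M2c, part "Rat" : a `Gam`-fixed element of `FM M` has rational polynomial coordinates
-/

set_option autoImplicit false
set_option synthInstance.maxHeartbeats 400000

open AlgebraicCurve ModularCurve Polynomial

namespace Fermat.Agent.S19

open Fermat.Agent.S27 Fermat.Agent.RED Fermat.Agent.S28

set_option linter.unusedSectionVars false

variable (M : ℕ) [NeZero M] {ℓ : ℕ} [Fact ℓ.Prime] {n : ℕ} {u : LaurentSeries ℤ}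

/-- `coeffMap` commutes with evaluation of polynomials. -/
theorem coeffMap_aeval_map {K C : Type*} [Field K] [Field C] (ι : K →+* C) (x : LaurentSeries K)
    (g : K[X]) : coeffMap ι (aeval x g) = aeval (coeffMap ι x) (g.map ι) := by
  induction g using Polynomial.induction_on' with
  | add p q hp hq => rw [map_add, map_add, Polynomial.map_add, map_add, hp, hq]
  | monomial m a =>
    rw [aeval_monomial, Polynomial.map_monomial, aeval_monomial, map_mul, map_pow,
      algebraMap_laurentSeries_eq_single, algebraMap_laurentSeries_eq_single, coeffMap_single]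

/-- a `Gam`-fixed element of `FM M` comes from `ℚ((q))`. -/
theorem exists_rat_of_fixed (y : FM M) (hy : ∀ σ : Gam, galM M σ • y = y) :
    ∃ y₀ : LaurentSeries ℚ, y₀ ∈ laurentBaseChange ℚ (modularFunctionFieldFull M) ∧
      coeffMap (algebraMap ℚ Qb) y₀ = (y : LaurentSeries Qb) := by
  obtain ⟨y₀, hy₀⟩ := GAL.Descent.exists_coeffMap_eq (algebraMap ℚ Qb) (y : LaurentSeries Qb)
    (fun m => mem_range_of_fixed _ (fun σ => by
      have h1 := congrArg (fun z : FM M => (z : LaurentSeries Qb).coeff m) (hy σ)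
      simp only [coe_arithmeticGalois_smul, coeffMap_coeff] at h1
      exact h1))
  refine ⟨y₀, ?_, hy₀⟩
  rw [← GAL.Descent.coeffMap_mem_laurentBaseChange_iff (algebraMap ℚ Qb), hy₀]
  exact y.2

/-- rational coordinates of one fixed element. -/
theorem exists_rational_coords_one (hn : 0 < n) (h : IsCoreExt M ℓ n u) (y : FM M)
    (hy : ∀ σ : Gam, galM M σ • y = y) :
    ∃ (g : ℚ[X]) (f : Fin n → ℚ[X]), g ≠ 0 ∧
      aeval (jqModC Qb) (g.map (algebraMap ℚ Qb)) * (y : LaurentSeries Qb) =
        ∑ i, aeval (jqModC Qb) ((f i).map (algebraMap ℚ Qb)) * castLS Qb u ^ (i : ℕ) := by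
  obtain ⟨y₀, hy₀, hyy⟩ := exists_rat_of_fixed M y hy
  obtain ⟨g, f, hg, hrel⟩ := inSpan_of_mem_baseChange ℚ hn h y₀ hy₀
  refine ⟨g, f, ?_, ?_⟩
  · rintro rfl; exact hg (map_zero _)
  · have h1 := congrArg (coeffMap (algebraMap ℚ Qb)) hrel
    rw [map_mul, map_sum, coeffMap_aeval_map, coeffMap_jqModC, hyy] at h1
    rw [h1]
    refine Finset.sum_congr rfl fun i _ => ?_
    rw [map_mul, map_pow, coeffMap_aeval_map, coeffMap_jqModC, coeffMap_castLS]

/-- rational coordinates of a finite family of fixed elements, with a common denominator. -/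
theorem exists_rational_coords (hn : 0 < n) (h : IsCoreExt M ℓ n u) {d : ℕ} (v : Fin d → FM M)
    (hv : ∀ (σ : Gam) j, galM M σ • v j = v j) :
    ∃ (G : ℚ[X]) (f : Fin d → Fin n → ℚ[X]), G ≠ 0 ∧ ∀ j,
      aeval (jqModC Qb) (G.map (algebraMap ℚ Qb)) * (v j : LaurentSeries Qb) =
        ∑ i, aeval (jqModC Qb) ((f j i).map (algebraMap ℚ Qb)) * castLS Qb u ^ (i : ℕ) := by
  classical
  choose g f hg hrel using fun j => exists_rational_coords_one M hn h (v j) (fun σ => hv σ j)
  refine ⟨∏ j, g j, fun j i => (∏ j' ∈ Finset.univ.erase j, g j') * f j i,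
    Finset.prod_ne_zero_iff.mpr fun j _ => hg j, fun j => ?_⟩
  rw [← Finset.mul_prod_erase Finset.univ g (Finset.mem_univ j), Polynomial.map_mul, map_mul,
    mul_comm (aeval _ _), mul_assoc, hrel j, Finset.mul_sum]
  refine Finset.sum_congr rfl fun i _ => ?_
  rw [Polynomial.map_mul, map_mul, mul_assoc]

end Fermat.Agent.S19
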